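import Mathlib

set_option autoImplicit false

namespace Fermat.Agent.S10.TL

/-- coefficientwise addition of coefficient lists -/
def addL : List ℕ → List ℕ → List ℕ
  | [], l => l
  | a :: as, [] => a :: as
  | a :: as, b :: bs => (a + b) :: addL as bs

/-- product of coefficient lists -/
def mulL : List ℕ → List ℕ → List ℕ
  | [], _ => []
  | a :: as, l => addL (l.map (a * ·)) (0 :: mulL as l)

/-- truncate at degree `N` and reduce the coefficients mod `p` -/
def red (p N : ℕ) (l : List ℕ) : List ℕ := (l.take N).map (· % p)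

/-- truncated product -/
def mulT (p N : ℕ) (a b : List ℕ) : List ℕ := red p N (mulL a b)

/-- truncated power -/
def powT (p N : ℕ) (a : List ℕ) : ℕ → List ℕ
  | 0 => [1]
  | e + 1 => mulT p N (powT p N a e) a

section
variable {R : Type*} [CommRing R] (x : R)

/-- evaluation of a coefficient list -/
def ev : List ℕ → R
  | [] => 0
  | a :: as => a + x * ev as

@[simp] theorem ev_nil : ev x [] = 0 := rfl
@[simp] theorem ev_cons (a : ℕ) (as : List ℕ) : ev x (a :: as) = a + x * ev x as := rfl

theorem ev_addL (a b : List ℕ) : ev x (addL a b) = ev x a + ev x b := by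
  induction a generalizing b with
  | nil => simp [addL]
  | cons a as ih =>
    cases b with
    | nil => simp [addL]
    | cons b bs =>
      simp only [addL, ev_cons, ih]
      push_cast
      ring

theorem ev_map_mul (a : ℕ) (l : List ℕ) : ev x (l.map (a * ·)) = a * ev x l := by
  induction l with
  | nil => simp
  | cons b bs ih =>
    simp only [List.map_cons, ev_cons, ih]
    push_cast
    ring

theorem ev_mulL (a b : List ℕ) : ev x (mulL a b) = ev x a * ev x b := by
  induction a with
  | nil => simp [mulL]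
  | cons a as ih =>
    simp only [mulL, ev_addL, ev_map_mul, ev_cons, ih]
    push_cast
    ring

theorem dvd_ev_sub_take (N : ℕ) (l : List ℕ) : x ^ N ∣ ev x l - ev x (l.take N) := by
  induction N generalizing l with
  | zero => simp
  | succ N ih =>
    cases l with
    | nil => simp
    | cons a as =>
      simp only [List.take_succ_cons, ev_cons]
      have : (a : R) + x * ev x as - (a + x * ev x (as.take N))
          = x * (ev x as - ev x (as.take N)) := by ring
      rw [this, pow_succ, mul_comm]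
      exact mul_dvd_mul_left x (ih as)

theorem dvd_ev_sub_mod (p : ℕ) (l : List ℕ) : (p : R) ∣ ev x l - ev x (l.map (· % p)) := by
  induction l with
  | nil => simp
  | cons a as ih =>
    simp only [List.map_cons, ev_cons]
    have : (a : R) + x * ev x as - (((a % p : ℕ) : R) + x * ev x (as.map (· % p)))
        = ((a : R) - ((a % p : ℕ) : R)) + x * (ev x as - ev x (as.map (· % p))) := by ring
    rw [this]
    refine dvd_add ?_ (Dvd.dvd.mul_left ih _)
    have h : (a : R) = ((a % p + p * (a / p) : ℕ) : R) := by rw [Nat.mod_add_div]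
    rw [h]
    push_cast
    simp

theorem dvd_ev_sub_red {p N : ℕ} (hp : x ^ N ∣ (p : R)) (l : List ℕ) :
    x ^ N ∣ ev x l - ev x (red p N l) := by
  have h1 := dvd_ev_sub_take x N l
  have h2 := hp.trans (dvd_ev_sub_mod x p (l.take N))
  have : ev x l - ev x (red p N l)
      = (ev x l - ev x (l.take N)) + (ev x (l.take N) - ev x ((l.take N).map (· % p))) := by
    simp [red]
  rw [this]
  exact dvd_add h1 h2

/-- `L` represents `y` modulo `x ^ N`. -/
def Rep (N : ℕ) (L : List ℕ) (y : R) : Prop := x ^ N ∣ y - ev x L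

variable {x}

theorem Rep.mul {p N : ℕ} (hp : x ^ N ∣ (p : R)) {L₁ L₂ : List ℕ} {y₁ y₂ : R}
    (h₁ : Rep x N L₁ y₁) (h₂ : Rep x N L₂ y₂) : Rep x N (mulT p N L₁ L₂) (y₁ * y₂) := by
  unfold Rep at *
  have h3 := dvd_ev_sub_red x hp (mulL L₁ L₂)
  rw [ev_mulL] at h3
  have : y₁ * y₂ - ev x (mulT p N L₁ L₂)
      = (y₁ - ev x L₁) * y₂ + ev x L₁ * (y₂ - ev x L₂)
        + (ev x L₁ * ev x L₂ - ev x (red p N (mulL L₁ L₂))) := by
    simp only [mulT]; ring
  rw [this]
  exact dvd_add (dvd_add (Dvd.dvd.mul_right h₁ _) (Dvd.dvd.mul_left h₂ _)) h3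

theorem Rep.pow {p N : ℕ} (hp : x ^ N ∣ (p : R)) {L : List ℕ} {y : R}
    (h : Rep x N L y) (e : ℕ) : Rep x N (powT p N L e) (y ^ e) := by
  induction e with
  | zero => simp [Rep, powT]
  | succ e ih =>
    rw [pow_succ]
    exact Rep.mul hp ih h

theorem ev_append (L₁ L₂ : List ℕ) : ev x (L₁ ++ L₂) = ev x L₁ + x ^ L₁.length * ev x L₂ := by
  induction L₁ with
  | nil => simp
  | cons a as ih =>
    simp only [List.cons_append, ev_cons, ih, List.length_cons]
    ring

theorem ev_replicate_zero (k : ℕ) : ev x (List.replicate k 0) = 0 := by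
  induction k with
  | zero => simp
  | succ k ih => simp [List.replicate_succ, ih]

theorem Rep.extract {N : ℕ} {y : R} (k m β : ℕ) (rest : List ℕ)
    (hkN : k + 2 ≤ N) (h : Rep x N (m :: (List.replicate k 0 ++ β :: rest)) y) :
    x ^ (k + 2) ∣ y - (m + β * x ^ (k + 1)) := by
  unfold Rep at h
  rw [ev_cons, ev_append, ev_replicate_zero, ev_cons, List.length_replicate] at h
  have : y - ((m : R) + β * x ^ (k + 1))
      = (y - (m + x * (0 + x ^ k * (β + x * ev x rest)))) + x ^ (k + 2) * ev x rest := by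
    ring
  rw [this]
  exact dvd_add ((pow_dvd_pow x hkN).trans h) (dvd_mul_right _ _)

/-- `L` represents some unit modulo `x ^ N`. -/
def URep (x : R) (N : ℕ) (L : List ℕ) : Prop := ∃ u : Rˣ, Rep x N L (u : R)

theorem URep.mul {p N : ℕ} (hp : x ^ N ∣ (p : R)) {L₁ L₂ : List ℕ}
    (h₁ : URep x N L₁) (h₂ : URep x N L₂) : URep x N (mulT p N L₁ L₂) := by
  obtain ⟨u, hu⟩ := h₁
  obtain ⟨v, hv⟩ := h₂
  exact ⟨u * v, by rw [Units.val_mul]; exact Rep.mul hp hu hv⟩

theorem URep.pow {p N : ℕ} (hp : x ^ N ∣ (p : R)) {L : List ℕ}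
    (h : URep x N L) (e : ℕ) : URep x N (powT p N L e) := by
  obtain ⟨u, hu⟩ := h
  exact ⟨u ^ e, by rw [Units.val_pow_eq_pow_val]; exact Rep.pow hp hu e⟩

theorem URep.extract {N : ℕ} (k m β : ℕ) (rest : List ℕ)
    (hkN : k + 2 ≤ N) (h : URep x N (m :: (List.replicate k 0 ++ β :: rest))) :
    ∃ u : Rˣ, x ^ (k + 2) ∣ (u : R) - (m + β * x ^ (k + 1)) := by
  obtain ⟨u, hu⟩ := h
  exact ⟨u, hu.extract k m β rest hkN⟩

end

end Fermat.Agent.S10.TL
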