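import Fermat.Agent.S10.KummerTriangular
import Fermat.Agent.S10.TruncList

set_option autoImplicit false
open NumberField

namespace Fermat.Agent.S10

open TL

section
variable {p : ℕ} [hp : Fact p.Prime] {K : Type*} [Field K] [NumberField K]
  [IsCyclotomicExtension {p} ℚ K] {ζ : K} (hζ : IsPrimitiveRoot ζ p)

theorem urep_zeta (N : ℕ) : URep (hζ.toInteger - 1) N [1, 1] :=
  ⟨(hζ.toInteger_isPrimitiveRoot.isUnit hp.out.ne_zero).unit, by simp [TL.Rep]⟩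

theorem urep_geom (N a : ℕ) (ha : a.Coprime p) (L : List ℕ)
    (hL : ∀ x : 𝓞 K, ev x L = ∑ i ∈ Finset.range a, (x + 1) ^ i) :
    URep (hζ.toInteger - 1) N L :=
  ⟨(hζ.toInteger_isPrimitiveRoot.geom_sum_isUnit hp.out.two_le ha).unit, by
    simp [TL.Rep, hL]⟩

end

theorem kummer_five (K : Type*) [Field K] [NumberField K] [IsCyclotomicExtension {5} ℚ K]
    (u : (𝓞 K)ˣ) (n : ℤ) (h : ((5 : ℕ) : 𝓞 K) ∣ (u : 𝓞 K) - n) : ∃ v : (𝓞 K)ˣ, u = v ^ 5 := by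
  have : Fact (Nat.Prime 5) := ⟨by norm_num⟩
  have hζ := IsCyclotomicExtension.zeta_spec 5 ℚ K
  have hp : (hζ.toInteger - 1) ^ 4 ∣ ((5 : ℕ) : 𝓞 K) := lambda_pow_dvd_p hζ
  have hZ := urep_zeta hζ 4
  have hX2 := urep_geom hζ 4 2 (by norm_num) [2, 1]
    (by intro x; simp [Finset.sum_range_succ]; ring)
  -- level 1
  obtain ⟨c0, h0⟩ := URep.extract 0 1 1 [] (by norm_num) hZ
  -- level 2
  have e1 : mulT 5 4 (powT 5 4 [1, 1] 2) [2, 1] = 2 :: (List.replicate 1 0 ++ 4 :: [1]) := by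
    decide +kernel
  obtain ⟨c1, h1⟩ := URep.extract 1 2 4 [1] (by norm_num) (e1 ▸ (hZ.pow hp 2).mul hp hX2)
  refine kummer_of_triangular hζ (by norm_num) 2 (by norm_num) ![c0, c1] ![1, 2] ![1, 2] ![1, 4]
    ?_ ?_ ?_ ?_ ?_ u n h
  · intro i j hij
    fin_cases i <;> fin_cases j <;> simp_all
  · intro i; fin_cases i <;> simp
  · intro i; fin_cases i <;> simp
  · intro i; fin_cases i <;> simp
  · intro i
    fin_cases i
    · simpa using h0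
    · simpa using h1

theorem kummer_seven (K : Type*) [Field K] [NumberField K] [IsCyclotomicExtension {7} ℚ K]
    (u : (𝓞 K)ˣ) (n : ℤ) (h : ((7 : ℕ) : 𝓞 K) ∣ (u : 𝓞 K) - n) : ∃ v : (𝓞 K)ˣ, u = v ^ 7 := by
  have : Fact (Nat.Prime 7) := ⟨by norm_num⟩
  have hζ := IsCyclotomicExtension.zeta_spec 7 ℚ K
  have hp : (hζ.toInteger - 1) ^ 6 ∣ ((7 : ℕ) : 𝓞 K) := lambda_pow_dvd_p hζ
  have hZ := urep_zeta hζ 6
  have hX2 := urep_geom hζ 6 2 (by norm_num) [2, 1]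
    (by intro x; simp [Finset.sum_range_succ]; ring)
  have hX3 := urep_geom hζ 6 3 (by norm_num) [3, 3, 1]
    (by intro x; simp [Finset.sum_range_succ]; ring)
  obtain ⟨c0, h0⟩ := URep.extract 0 1 1 [] (by norm_num) hZ
  have e1 : mulT 7 6 (powT 7 6 [1, 1] 3) [2, 1]
      = 2 :: (List.replicate 1 0 ++ 2 :: [5, 1]) := by
    decide +kernel
  obtain ⟨c1, h1⟩ := URep.extract 1 2 2 [5, 1] (by norm_num) (e1 ▸ ((hZ.pow hp 3).mul hp hX2))
  have e2 : mulT 7 6 (mulT 7 6 (powT 7 6 [1, 1] 5) (powT 7 6 [2, 1] 2)) [3, 3, 1]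
      = 5 :: (List.replicate 3 0 ++ 1 :: [5]) := by
    decide +kernel
  obtain ⟨c2, h2⟩ := URep.extract 3 5 1 [5] (by norm_num) (e2 ▸ (((hZ.pow hp 5).mul hp (hX2.pow hp 2)).mul hp hX3))
  refine kummer_of_triangular hζ (by norm_num) 3 (by norm_num) ![c0, c1, c2] ![1, 2, 4] ![1, 2, 5] ![1, 2, 1]
    ?_ ?_ ?_ ?_ ?_ u n h
  · intro i j hij
    fin_cases i <;> fin_cases j <;> simp_all
  · intro i; fin_cases i <;> simp
  · intro i; fin_cases i <;> simp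
  · intro i; fin_cases i <;> simp
  · intro i
    fin_cases i
    · simpa using h0
    · simpa using h1
    · simpa using h2

theorem kummer_eleven (K : Type*) [Field K] [NumberField K] [IsCyclotomicExtension {11} ℚ K]
    (u : (𝓞 K)ˣ) (n : ℤ) (h : ((11 : ℕ) : 𝓞 K) ∣ (u : 𝓞 K) - n) : ∃ v : (𝓞 K)ˣ, u = v ^ 11 := by
  have : Fact (Nat.Prime 11) := ⟨by norm_num⟩
  have hζ := IsCyclotomicExtension.zeta_spec 11 ℚ K
  have hp : (hζ.toInteger - 1) ^ 10 ∣ ((11 : ℕ) : 𝓞 K) := lambda_pow_dvd_p hζ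
  have hZ := urep_zeta hζ 10
  have hX2 := urep_geom hζ 10 2 (by norm_num) [2, 1]
    (by intro x; simp [Finset.sum_range_succ]; ring)
  have hX3 := urep_geom hζ 10 3 (by norm_num) [3, 3, 1]
    (by intro x; simp [Finset.sum_range_succ]; ring)
  have hX4 := urep_geom hζ 10 4 (by norm_num) [4, 6, 4, 1]
    (by intro x; simp [Finset.sum_range_succ]; ring)
  have hX5 := urep_geom hζ 10 5 (by norm_num) [5, 10, 10, 5, 1]
    (by intro x; simp [Finset.sum_range_succ]; ring)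
  obtain ⟨c0, h0⟩ := URep.extract 0 1 1 [] (by norm_num) hZ
  have e1 : mulT 11 10 (powT 11 10 [1, 1] 5) [2, 1]
      = 2 :: (List.replicate 1 0 ++ 3 :: [8, 9, 7, 1]) := by
    decide +kernel
  obtain ⟨c1, h1⟩ := URep.extract 1 2 3 [8, 9, 7, 1] (by norm_num) (e1 ▸ ((hZ.pow hp 5).mul hp hX2))
  have e2 : mulT 11 10 (mulT 11 10 (powT 11 10 [1, 1] 4) [2, 1]) [3, 3, 1]
      = 6 :: (List.replicate 3 0 ++ 10 :: [2, 9, 1]) := by
    decide +kernel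
  obtain ⟨c2, h2⟩ := URep.extract 3 6 10 [2, 9, 1] (by norm_num) (e2 ▸ (((hZ.pow hp 4).mul hp hX2).mul hp hX3))
  have e3 : mulT 11 10 (mulT 11 10 (mulT 11 10 (powT 11 10 [1, 1] 5) (powT 11 10 [2, 1] 7)) [3, 3, 1]) [4, 6, 4, 1]
      = 7 :: (List.replicate 5 0 ++ 7 :: [1, 4, 5]) := by
    decide +kernel
  obtain ⟨c3, h3⟩ := URep.extract 5 7 7 [1, 4, 5] (by norm_num) (e3 ▸ ((((hZ.pow hp 5).mul hp (hX2.pow hp 7)).mul hp hX3).mul hp hX4))
  have e4 : mulT 11 10 (mulT 11 10 (mulT 11 10 (mulT 11 10 [1, 1] (powT 11 10 [2, 1] 5)) (powT 11 10 [3, 3, 1] 3)) (powT 11 10 [4, 6, 4, 1] 9)) [5, 10, 10, 5, 1]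
      = 2 :: (List.replicate 7 0 ++ 4 :: [6]) := by
    decide +kernel
  obtain ⟨c4, h4⟩ := URep.extract 7 2 4 [6] (by norm_num) (e4 ▸ ((((hZ.mul hp (hX2.pow hp 5)).mul hp (hX3.pow hp 3)).mul hp (hX4.pow hp 9)).mul hp hX5))
  refine kummer_of_triangular hζ (by norm_num) 5 (by norm_num) ![c0, c1, c2, c3, c4] ![1, 2, 4, 6, 8] ![1, 2, 6, 7, 2] ![1, 3, 10, 7, 4]
    ?_ ?_ ?_ ?_ ?_ u n h
  · intro i j hij
    fin_cases i <;> fin_cases j <;> simp_all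
  · intro i; fin_cases i <;> simp
  · intro i; fin_cases i <;> simp
  · intro i; fin_cases i <;> simp
  · intro i
    fin_cases i
    · simpa using h0
    · simpa using h1
    · simpa using h2
    · simpa using h3
    · simpa using h4

theorem kummer_thirteen (K : Type*) [Field K] [NumberField K] [IsCyclotomicExtension {13} ℚ K]
    (u : (𝓞 K)ˣ) (n : ℤ) (h : ((13 : ℕ) : 𝓞 K) ∣ (u : 𝓞 K) - n) : ∃ v : (𝓞 K)ˣ, u = v ^ 13 := by
  have : Fact (Nat.Prime 13) := ⟨by norm_num⟩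
  have hζ := IsCyclotomicExtension.zeta_spec 13 ℚ K
  have hp : (hζ.toInteger - 1) ^ 12 ∣ ((13 : ℕ) : 𝓞 K) := lambda_pow_dvd_p hζ
  have hZ := urep_zeta hζ 12
  have hX2 := urep_geom hζ 12 2 (by norm_num) [2, 1]
    (by intro x; simp [Finset.sum_range_succ]; ring)
  have hX3 := urep_geom hζ 12 3 (by norm_num) [3, 3, 1]
    (by intro x; simp [Finset.sum_range_succ]; ring)
  have hX4 := urep_geom hζ 12 4 (by norm_num) [4, 6, 4, 1]
    (by intro x; simp [Finset.sum_range_succ]; ring)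
  have hX5 := urep_geom hζ 12 5 (by norm_num) [5, 10, 10, 5, 1]
    (by intro x; simp [Finset.sum_range_succ]; ring)
  have hX6 := urep_geom hζ 12 6 (by norm_num) [6, 15, 20, 15, 6, 1]
    (by intro x; simp [Finset.sum_range_succ]; ring)
  obtain ⟨c0, h0⟩ := URep.extract 0 1 1 [] (by norm_num) hZ
  have e1 : mulT 13 12 (powT 13 12 [1, 1] 6) [2, 1]
      = 2 :: (List.replicate 1 0 ++ 10 :: [3, 11, 1, 8, 1]) := by
    decide +kernel
  obtain ⟨c1, h1⟩ := URep.extract 1 2 10 [3, 11, 1, 8, 1] (by norm_num) (e1 ▸ ((hZ.pow hp 6).mul hp hX2))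
  have e2 : mulT 13 12 (mulT 13 12 (powT 13 12 [1, 1] 9) (powT 13 12 [2, 1] 6)) [3, 3, 1]
      = 10 :: (List.replicate 3 0 ++ 6 :: [1, 7, 9, 4, 5, 4, 7]) := by
    decide +kernel
  obtain ⟨c2, h2⟩ := URep.extract 3 10 6 [1, 7, 9, 4, 5, 4, 7] (by norm_num) (e2 ▸ (((hZ.pow hp 9).mul hp (hX2.pow hp 6)).mul hp hX3))
  have e3 : mulT 13 12 (mulT 13 12 (mulT 13 12 (powT 13 12 [1, 1] 6) (powT 13 12 [2, 1] 7)) (powT 13 12 [3, 3, 1] 2)) [4, 6, 4, 1]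
      = 6 :: (List.replicate 5 0 ++ 6 :: [8, 10, 5, 10, 1]) := by
    decide +kernel
  obtain ⟨c3, h3⟩ := URep.extract 5 6 6 [8, 10, 5, 10, 1] (by norm_num) (e3 ▸ ((((hZ.pow hp 6).mul hp (hX2.pow hp 7)).mul hp (hX3.pow hp 2)).mul hp hX4))
  have e4 : mulT 13 12 (mulT 13 12 (mulT 13 12 (mulT 13 12 [1, 1] (powT 13 12 [2, 1] 12)) (powT 13 12 [3, 3, 1] 11)) (powT 13 12 [4, 6, 4, 1] 4)) [5, 10, 10, 5, 1]
      = 2 :: (List.replicate 7 0 ++ 2 :: [5, 7, 12]) := by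
    decide +kernel
  obtain ⟨c4, h4⟩ := URep.extract 7 2 2 [5, 7, 12] (by norm_num) (e4 ▸ ((((hZ.mul hp (hX2.pow hp 12)).mul hp (hX3.pow hp 11)).mul hp (hX4.pow hp 4)).mul hp hX5))
  have e5 : mulT 13 12 (mulT 13 12 (mulT 13 12 (mulT 13 12 (mulT 13 12 (powT 13 12 [1, 1] 2) (powT 13 12 [2, 1] 3)) (powT 13 12 [3, 3, 1] 10)) (powT 13 12 [4, 6, 4, 1] 12)) (powT 13 12 [5, 10, 10, 5, 1] 9)) [6, 15, 20, 15, 6, 1]
      = 5 :: (List.replicate 9 0 ++ 10 :: [2]) := by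
    decide +kernel
  obtain ⟨c5, h5⟩ := URep.extract 9 5 10 [2] (by norm_num) (e5 ▸ ((((((hZ.pow hp 2).mul hp (hX2.pow hp 3)).mul hp (hX3.pow hp 10)).mul hp (hX4.pow hp 12)).mul hp (hX5.pow hp 9)).mul hp hX6))
  refine kummer_of_triangular hζ (by norm_num) 6 (by norm_num) ![c0, c1, c2, c3, c4, c5] ![1, 2, 4, 6, 8, 10] ![1, 2, 10, 6, 2, 5] ![1, 10, 6, 6, 2, 10]
    ?_ ?_ ?_ ?_ ?_ u n h
  · intro i j hij
    fin_cases i <;> fin_cases j <;> simp_all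
  · intro i; fin_cases i <;> simp
  · intro i; fin_cases i <;> simp
  · intro i; fin_cases i <;> simp
  · intro i
    fin_cases i
    · simpa using h0
    · simpa using h1
    · simpa using h2
    · simpa using h3
    · simpa using h4
    · simpa using h5

end Fermat.Agent.S10
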