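import Mathlib

set_option autoImplicit false

open NumberField Ideal Module

namespace Fermat.Agent.S10

section general

variable {p : ℕ} [hp : Fact p.Prime] {K : Type*} [Field K] [NumberField K]
  [IsCyclotomicExtension {p} ℚ K]

/-- If `α` has norm `± q ^ f` where `f` is the order of `q` mod `p`, then some prime over `q`
is principal. -/
theorem exists_isPrincipal_of_norm_eq {q : ℕ} (hq : q.Prime) (hqp : q ≠ p) (α : 𝓞 K)
    (hα : (Algebra.norm ℤ α).natAbs = q ^ orderOf (q : ZMod p)) :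
    ∃ P ∈ primesOver (span {(q : ℤ)}) (𝓞 K), Submodule.IsPrincipal P := by
  have : Fact q.Prime := ⟨hq⟩
  have : NeZero p := ⟨hp.out.ne_zero⟩
  have hqp' : ¬ q ∣ p := fun h => hqp ((Nat.prime_dvd_prime_iff_eq hq hp.out).mp h)
  have hcop : q.Coprime p := (Nat.coprime_primes hq hp.out).mpr hqp
  have hfpos : 0 < orderOf (q : ZMod p) := by
    have : IsOfFinOrder (ZMod.unitOfCoprime q hcop) := isOfFinOrder_of_finite _
    have h2 : IsOfFinOrder ((ZMod.unitOfCoprime q hcop : (ZMod p)ˣ) : ZMod p) :=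
      (Units.coeHom (ZMod p)).isOfFinOrder this
    simpa using h2.orderOf_pos
  have hN : absNorm (span {α}) = q ^ orderOf (q : ZMod p) := by
    rw [absNorm_span_singleton, hα]
  have hne : span {α} ≠ ⊤ := by
    intro h
    rw [← absNorm_eq_one_iff, hN] at h
    have := Nat.one_lt_pow hfpos.ne' hq.one_lt
    omega
  obtain ⟨P, hPmax, hle⟩ := Ideal.exists_le_maximal _ hne
  have hPprime : P.IsPrime := hPmax.isPrime
  have hdvd : absNorm P ∣ q ^ orderOf (q : ZMod p) := hN ▸ absNorm_dvd_absNorm_of_le hle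
  have hqP : (q : 𝓞 K) ∈ P := by
    have h1 : ((q ^ orderOf (q : ZMod p) : ℕ) : 𝓞 K) ∈ P := by
      obtain ⟨c, hc⟩ := hdvd
      rw [hc, Nat.cast_mul]
      exact P.mul_mem_right _ (absNorm_mem P)
    rw [Nat.cast_pow] at h1
    exact hPprime.mem_of_pow_mem _ h1
  have hlies : P.LiesOver (span {(q : ℤ)}) := by
    constructor
    have hmax : (span {(q : ℤ)}).IsMaximal :=
      (Nat.prime_iff_prime_int.mp hq).isMaximal_span_singleton
    refine hmax.eq_of_le ?_ ?_
    · exact (Ideal.IsPrime.under ℤ P).ne_top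
    · rw [span_singleton_le_iff_mem, Ideal.mem_comap]
      simpa using hqP
  have hf : P.inertiaDeg ℤ = orderOf (q : ZMod p) :=
    IsCyclotomicExtension.Rat.inertiaDeg_eq_of_not_dvd q K P hqp'
  have hNP : absNorm P = q ^ orderOf (q : ZMod p) := by
    rw [← hf, ← natAbs_pow_inertiaDeg (q : ℤ) P, Int.natAbs_natCast]
  refine ⟨P, ⟨hPprime, hlies⟩, ?_⟩
  obtain ⟨J, hJ⟩ := Ideal.dvd_iff_le.mpr hle
  have hJ1 : absNorm J = 1 := by
    have := congrArg absNorm hJ
    rw [map_mul, hN, hNP] at this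
    have hpos : 0 < q ^ orderOf (q : ZMod p) := pow_pos hq.pos _
    exact (Nat.eq_of_mul_eq_mul_left hpos (by rw [mul_one]; exact this)).symm
  rw [absNorm_eq_one_iff] at hJ1
  rw [hJ1, Ideal.mul_top] at hJ
  exact ⟨α, by rw [← hJ]⟩

/-- The norm of `F(ζ)` can be read off from the product of the conjugates `F(ζ ^ k)`. -/
theorem natAbs_norm_eq_of_prod (F : Polynomial ℤ) (n : ℤ)
    (h : ∏ k ∈ Finset.range (p - 1),
      Polynomial.aeval ((IsCyclotomicExtension.zeta_spec p ℚ K).toInteger ^ (k + 1)) F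
        = (n : 𝓞 K)) :
    (Algebra.norm ℤ
      (Polynomial.aeval ((IsCyclotomicExtension.zeta_spec p ℚ K).toInteger) F)).natAbs
      = n.natAbs := by
  have : NeZero p := ⟨hp.out.ne_zero⟩
  set hz := IsCyclotomicExtension.zeta_spec p ℚ K with hz_def
  set ζ := hz.toInteger with hζ_def
  have hirr : Irreducible (Polynomial.cyclotomic p ℚ) :=
    Polynomial.cyclotomic.irreducible_rat hp.out.pos
  have hconj : ∀ k ∈ Finset.range (p - 1),
      Algebra.norm ℤ (Polynomial.aeval (ζ ^ (k + 1)) F) = Algebra.norm ℤ (Polynomial.aeval ζ F) := by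
    intro k hk
    have hk' : k + 1 < p := by have := Finset.mem_range.mp hk; omega
    have hcop : (k + 1).Coprime p :=
      (Nat.coprime_of_lt_prime (by omega) hk' hp.out).symm
    have hprim : IsPrimitiveRoot ((IsCyclotomicExtension.zeta p ℚ K) ^ (k + 1)) p :=
      hz.pow_of_coprime _ hcop
    have hσ := IsCyclotomicExtension.fromZetaAut_spec hprim hirr
    set σ := IsCyclotomicExtension.fromZetaAut hprim hirr
    have h1 : ((Polynomial.aeval (ζ ^ (k + 1)) F : 𝓞 K) : K)
        = σ ((Polynomial.aeval ζ F : 𝓞 K) : K) := by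
      have e1 : ∀ x : 𝓞 K, ((Polynomial.aeval x F : 𝓞 K) : K) = Polynomial.aeval (x : K) F := by
        intro x
        exact (Polynomial.aeval_algebraMap_apply K x F).symm
      rw [e1, e1]
      have e2 : σ (Polynomial.aeval (ζ : K) F)
          = (σ.toAlgHom.restrictScalars ℤ) (Polynomial.aeval (ζ : K) F) := rfl
      rw [e2, ← Polynomial.aeval_algHom_apply (σ.toAlgHom.restrictScalars ℤ)]
      congr 2
      simp only [map_pow, hζ_def, IsPrimitiveRoot.coe_toInteger]
      exact hσ.symm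
    have h2 : ((Algebra.norm ℤ (Polynomial.aeval (ζ ^ (k + 1)) F) : ℤ) : ℚ)
        = ((Algebra.norm ℤ (Polynomial.aeval ζ F) : ℤ) : ℚ) := by
      rw [Algebra.coe_norm_int, Algebra.coe_norm_int, h1, Algebra.norm_eq_of_algEquiv]
    exact_mod_cast h2
  have h3 := congrArg (Algebra.norm ℤ) h
  rw [map_prod, Finset.prod_congr rfl hconj, Finset.prod_const, Finset.card_range] at h3
  have h4 : Algebra.norm ℤ ((n : 𝓞 K)) = n ^ (p - 1) := by
    have : ((n : 𝓞 K)) = algebraMap ℤ (𝓞 K) n := by simp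
    rw [this, Algebra.norm_algebraMap, RingOfIntegers.rank,
      IsCyclotomicExtension.finrank (n := p) K hirr, Nat.totient_prime hp.out]
  rw [h4] at h3
  have h5 := congrArg Int.natAbs h3
  rw [Int.natAbs_pow, Int.natAbs_pow] at h5
  exact Nat.pow_left_injective (n := p - 1) (by have := hp.out.two_le; omega) h5

end general

end Fermat.Agent.S10
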