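import Mathlib
import Fermat.Agent.S10.PID13Tools
import Fermat.Agent.S10.PID13Prod

/-! `ℤ[ζ₁₃]` is a principal ideal domain. -/

set_option autoImplicit false
set_option linter.unusedSimpArgs false

open NumberField Ideal Module Nat Real InfinitePlace Polynomial cyclotomic

namespace Fermat.Agent.S10

theorem minkowski_thirteen (K : Type*) [Field K] [NumberField K] [IsCyclotomicExtension {13} ℚ K] :
    ⌊(4 / π) ^ nrComplexPlaces K *
      ((finrank ℚ K)! / (finrank ℚ K) ^ (finrank ℚ K) * √|discr K|)⌋₊ ≤ 307 := by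
  have hp13 : Nat.Prime 13 := by norm_num
  have : Fact (Nat.Prime 13) := ⟨hp13⟩
  rw [IsCyclotomicExtension.Rat.discr_prime 13 K, IsCyclotomicExtension.finrank (n := 13) K
    (irreducible_rat (by simp)), IsCyclotomicExtension.Rat.nrComplexPlaces_eq_totient_div_two 13,
    totient_prime hp13]
  have h12 : (12 : ℕ)! = 479001600 := by decide
  have hs : √|(((-1 : ℤ) ^ ((13 - 1) / 2) * (13 : ℕ) ^ (13 - 2) : ℤ) : ℝ)| < 1338717 := by
    rw [Real.sqrt_lt' (by norm_num)]
    norm_num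
  have hpi : (4 / π) ^ 6 < (4 / 3.14) ^ 6 := by
    have := Real.pi_gt_d2
    have hpos := Real.pi_pos
    gcongr
  have e1 : (13 - 1) / 2 = 6 := by norm_num
  have e2 : 13 - 1 = 12 := by norm_num
  rw [e1, e2, h12] at *
  apply Nat.le_of_lt_succ
  rw [Nat.floor_lt (by positivity)]
  calc (4 / π) ^ 6 * (((479001600 : ℕ) : ℝ) / ((12 : ℕ) : ℝ) ^ 12 *
        √|(((-1 : ℤ) ^ 6 * (13 : ℕ) ^ (13 - 2) : ℤ) : ℝ)|)
      < (4 / 3.14) ^ 6 * (((479001600 : ℕ) : ℝ) / ((12 : ℕ) : ℝ) ^ 12 * 1338717) := by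
        gcongr
    _ < ((307 + 1 : ℕ) : ℝ) := by norm_num

set_option maxRecDepth 100000 in
theorem small_prime_check_thirteen : ∀ q ∈ Finset.Icc 2 307, ∀ f ∈ Finset.Icc 1 8,
    q ^ f ≤ 307 → q ^ f % 13 = 1 → q.Prime → (q = 3 ∨ q = 53 ∨ q = 79 ∨ q = 131 ∨ q = 157) := by
  decide

theorem lt_pow_orderOf_thirteen {q : ℕ} (hq : q.Prime) (hq307 : q ≤ 307) (h13 : q ≠ 13)
    (hq' : ¬ (q = 3 ∨ q = 53 ∨ q = 79 ∨ q = 131 ∨ q = 157)) :
    307 < q ^ orderOf (q : ZMod 13) := by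
  by_contra hcon
  rw [not_lt] at hcon
  have hp13 : Nat.Prime 13 := by norm_num
  have hcop : q.Coprime 13 := (Nat.coprime_primes hq hp13).mpr h13
  have hfpos : 0 < orderOf (q : ZMod 13) := by
    have : IsOfFinOrder (ZMod.unitOfCoprime q hcop) := isOfFinOrder_of_finite _
    have h2 : IsOfFinOrder ((ZMod.unitOfCoprime q hcop : (ZMod 13)ˣ) : ZMod 13) :=
      (Units.coeHom (ZMod 13)).isOfFinOrder this
    simpa using h2.orderOf_pos
  set f := orderOf (q : ZMod 13) with hf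
  have h1 : (q : ZMod 13) ^ f = 1 := pow_orderOf_eq_one _
  have h2 : q ^ f % 13 = 1 := by
    have : ((q ^ f : ℕ) : ZMod 13) = ((1 : ℕ) : ZMod 13) := by push_cast; exact h1
    rw [ZMod.natCast_eq_natCast_iff'] at this
    simpa using this
  have hf8 : f ≤ 8 := by
    by_contra h9
    rw [not_le] at h9
    have : 2 ^ 9 ≤ q ^ f :=
      (Nat.pow_le_pow_left hq.two_le 9).trans (Nat.pow_le_pow_right hq.pos h9)
    omega
  exact hq' (small_prime_check_thirteen q (Finset.mem_Icc.mpr ⟨hq.two_le, hq307⟩) f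
    (Finset.mem_Icc.mpr ⟨hfpos, hf8⟩) hcon h2 hq)

section

variable (K : Type*) [Field K] [NumberField K] [IsCyclotomicExtension {13} ℚ K]

/-- The chosen primitive 13-th root of unity in `𝓞 K`. -/
noncomputable abbrev zeta13 : 𝓞 K := (IsCyclotomicExtension.zeta_spec 13 ℚ K).toInteger

theorem zeta13_pow : (zeta13 K) ^ 13 = 1 :=
  (IsCyclotomicExtension.zeta_spec 13 ℚ K).toInteger_isPrimitiveRoot.pow_eq_one

theorem zeta13_geom_sum :
    1 + zeta13 K + zeta13 K ^ 2 + zeta13 K ^ 3 + zeta13 K ^ 4 + zeta13 K ^ 5 + zeta13 K ^ 6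
      + zeta13 K ^ 7 + zeta13 K ^ 8 + zeta13 K ^ 9 + zeta13 K ^ 10 + zeta13 K ^ 11
      + zeta13 K ^ 12 = 0 := by
  have h := (IsCyclotomicExtension.zeta_spec 13 ℚ K).toInteger_isPrimitiveRoot.geom_sum_eq_zero
    (by norm_num)
  simpa [Finset.sum_range_succ] using h

theorem exists_principal_of_prod_thirteen {q f : ℕ} (hq : q.Prime) (hq13 : q ≠ 13)
    (ho : orderOf (q : ZMod 13) = f) (F : ℤ[X])
    (h : ∏ k ∈ Finset.range 12, aeval (zeta13 K ^ (k + 1)) F = (((q ^ f : ℕ) : ℤ) : 𝓞 K)) :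
    ∃ P ∈ primesOver (span {(q : ℤ)}) (𝓞 K), Submodule.IsPrincipal P := by
  have : Fact (Nat.Prime 13) := ⟨by norm_num⟩
  refine exists_isPrincipal_of_norm_eq (p := 13) hq hq13 (aeval (zeta13 K) F) ?_
  rw [ho, natAbs_norm_eq_of_prod (p := 13) (K := K) F ((q ^ f : ℕ) : ℤ) h, Int.natAbs_natCast]

theorem exists_principal_three :
    ∃ P ∈ primesOver (span {((3 : ℕ) : ℤ)}) (𝓞 K), Submodule.IsPrincipal P := by
  refine exists_principal_of_prod_thirteen K (f := 3) (by norm_num) (by norm_num)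
    (orderOf_eq_prime (by decide +revert) (by decide +revert)) (1 + X - X ^ 3 : ℤ[X]) ?_
  have h := prod_conj_27 (zeta13 K) (zeta13_pow K) (zeta13_geom_sum K)
  simp only [Finset.prod_range_succ, Finset.prod_range_zero, map_add, map_sub, map_one, map_pow,
    aeval_X, one_mul, zero_add, Nat.reduceAdd, pow_one]
  rw [h]
  norm_num

theorem exists_principal_fiftyThree :
    ∃ P ∈ primesOver (span {((53 : ℕ) : ℤ)}) (𝓞 K), Submodule.IsPrincipal P := by
  refine exists_principal_of_prod_thirteen K (f := 1) (by norm_num) (by norm_num)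
    (orderOf_eq_one_iff.mpr (by decide +revert)) (1 + X + X ^ 3 : ℤ[X]) ?_
  have h := prod_conj_53 (zeta13 K) (zeta13_pow K) (zeta13_geom_sum K)
  simp only [Finset.prod_range_succ, Finset.prod_range_zero, map_add, map_sub, map_one, map_pow,
    aeval_X, one_mul, zero_add, Nat.reduceAdd, pow_one]
  rw [h]
  norm_num

theorem exists_principal_seventyNine :
    ∃ P ∈ primesOver (span {((79 : ℕ) : ℤ)}) (𝓞 K), Submodule.IsPrincipal P := by
  refine exists_principal_of_prod_thirteen K (f := 1) (by norm_num) (by norm_num)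
    (orderOf_eq_one_iff.mpr (by decide +revert)) (1 + X - X ^ 4 : ℤ[X]) ?_
  have h := prod_conj_79 (zeta13 K) (zeta13_pow K) (zeta13_geom_sum K)
  simp only [Finset.prod_range_succ, Finset.prod_range_zero, map_add, map_sub, map_one, map_pow,
    aeval_X, one_mul, zero_add, Nat.reduceAdd, pow_one]
  rw [h]
  norm_num

theorem exists_principal_oneThirtyOne :
    ∃ P ∈ primesOver (span {((131 : ℕ) : ℤ)}) (𝓞 K), Submodule.IsPrincipal P := by
  refine exists_principal_of_prod_thirteen K (f := 1) (by norm_num) (by norm_num)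
    (orderOf_eq_one_iff.mpr (by decide +revert)) (1 - X - X ^ 3 : ℤ[X]) ?_
  have h := prod_conj_131 (zeta13 K) (zeta13_pow K) (zeta13_geom_sum K)
  simp only [Finset.prod_range_succ, Finset.prod_range_zero, map_add, map_sub, map_one, map_pow,
    aeval_X, one_mul, zero_add, Nat.reduceAdd, pow_one]
  rw [h]
  norm_num

theorem exists_principal_oneFiftySeven :
    ∃ P ∈ primesOver (span {((157 : ℕ) : ℤ)}) (𝓞 K), Submodule.IsPrincipal P := by
  refine exists_principal_of_prod_thirteen K (f := 1) (by norm_num) (by norm_num)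
    (orderOf_eq_one_iff.mpr (by decide +revert)) (1 - X + X ^ 2 + X ^ 4 : ℤ[X]) ?_
  have h := prod_conj_157 (zeta13 K) (zeta13_pow K) (zeta13_geom_sum K)
  simp only [Finset.prod_range_succ, Finset.prod_range_zero, map_add, map_sub, map_one, map_pow,
    aeval_X, one_mul, zero_add, Nat.reduceAdd, pow_one]
  rw [h]
  norm_num

theorem exists_principal_thirteen :
    ∃ P ∈ primesOver (span {((13 : ℕ) : ℤ)}) (𝓞 K), Submodule.IsPrincipal P := by
  have : Fact (Nat.Prime 13) := ⟨by norm_num⟩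
  have hz := IsCyclotomicExtension.zeta_spec 13 ℚ K
  obtain ⟨⟨P, hP1, hP2⟩⟩ := (span {((13 : ℕ) : ℤ)}).nonempty_primesOver (S := 𝓞 K)
  refine ⟨P, ⟨hP1, hP2⟩, ?_⟩
  rw [IsCyclotomicExtension.Rat.eq_span_zeta_sub_one_of_liesOver' 13 K hz P]
  exact ⟨_, rfl⟩

/-- If `IsCyclotomicExtension {13} ℚ K` then `𝓞 K` is a principal ideal domain. -/
theorem thirteen_pid : IsPrincipalIdealRing (𝓞 K) := by
  have : IsGalois ℚ K := IsCyclotomicExtension.isGalois {13} ℚ K
  have hM := minkowski_thirteen K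
  apply RingOfIntegers.isPrincipalIdealRing_of_isPrincipal_of_lt_or_isPrincipal_of_mem_primesOver_of_mem_Icc
  intro q hq hqp
  have hq307 : q ≤ 307 := (Finset.mem_Icc.mp hq).2.trans hM
  by_cases h13 : q = 13
  · subst h13
    obtain ⟨P, hP, hP'⟩ := exists_principal_thirteen K
    exact ⟨P, hP, Or.inr hP'⟩
  by_cases hq' : (q = 3 ∨ q = 53 ∨ q = 79 ∨ q = 131 ∨ q = 157)
  · rcases hq' with rfl | rfl | rfl | rfl | rfl
    · obtain ⟨P, hP, hP'⟩ := exists_principal_three K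
      exact ⟨P, hP, Or.inr hP'⟩
    · obtain ⟨P, hP, hP'⟩ := exists_principal_fiftyThree K
      exact ⟨P, hP, Or.inr hP'⟩
    · obtain ⟨P, hP, hP'⟩ := exists_principal_seventyNine K
      exact ⟨P, hP, Or.inr hP'⟩
    · obtain ⟨P, hP, hP'⟩ := exists_principal_oneThirtyOne K
      exact ⟨P, hP, Or.inr hP'⟩
    · obtain ⟨P, hP, hP'⟩ := exists_principal_oneFiftySeven K
      exact ⟨P, hP, Or.inr hP'⟩
  · have : Fact q.Prime := ⟨hqp⟩
    obtain ⟨⟨P, hP1, hP2⟩⟩ := (span {(q : ℤ)}).nonempty_primesOver (S := 𝓞 K)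
    refine ⟨P, ⟨hP1, hP2⟩, Or.inl ?_⟩
    have hnd : ¬ q ∣ 13 := fun h => h13 ((Nat.prime_dvd_prime_iff_eq hqp (by norm_num)).mp h)
    rw [IsCyclotomicExtension.Rat.inertiaDeg_eq_of_not_dvd q K P hnd]
    exact lt_of_le_of_lt hM (lt_pow_orderOf_thirteen hqp hq307 h13 hq')

end

/-- `ℤ[ζ₁₃]` is a principal ideal domain. -/
theorem pid_thirteen : IsPrincipalIdealRing (𝓞 (CyclotomicField 13 ℚ)) :=
  have : IsCyclotomicExtension {13} ℚ (CyclotomicField 13 ℚ) :=
    CyclotomicField.isCyclotomicExtension 13 ℚ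
  thirteen_pid (CyclotomicField 13 ℚ)

end Fermat.Agent.S10
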