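import Fermat.Agent.S10.PIDTools

set_option autoImplicit false

open NumberField Polynomial Ideal

namespace Fermat.Agent.S10

instance fact_prime_seven : Fact (Nat.Prime 7) := ⟨by norm_num⟩

theorem minkowski_seven_lt :
    (4 / Real.pi) ^ ((7 - 1) / 2) *
      ((((7 - 1).factorial : ℕ) : ℝ) / ((7 - 1 : ℕ) : ℝ) ^ (7 - 1) * √(((7 : ℕ) : ℝ) ^ (7 - 2)))
      < (4 : ℕ) + 1 := by
  have hpi : (3.14 : ℝ) < Real.pi := Real.pi_gt_d2
  have h1 : 4 / Real.pi < 4 / 3.14 := by gcongr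
  have h2 : (4 / Real.pi) ^ 3 < (4 / 3.14) ^ 3 := by gcongr
  have h3 : √(((7 : ℕ) : ℝ) ^ 5) < 130 := by
    rw [Real.sqrt_lt' (by norm_num)]
    norm_num
  have hf : ((7 - 1).factorial : ℕ) = 720 := by decide
  norm_num only [hf] at *
  have h4 : (0 : ℝ) ≤ √16807 := Real.sqrt_nonneg _
  have h5 : (0 : ℝ) < (4 / Real.pi) ^ 3 := by positivity
  nlinarith

instance isCyclotomicExtension_seven : IsCyclotomicExtension {7} ℚ (CyclotomicField 7 ℚ) :=
  CyclotomicField.isCyclotomicExtension 7 ℚ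

theorem pid_seven : IsPrincipalIdealRing (𝓞 (CyclotomicField 7 ℚ)) := by
  refine pid_of_bound' 7 (CyclotomicField 7 ℚ) 4 minkowski_seven_lt ?_
  intro q f hq _ hf hmod hle
  exfalso
  have h1 : 1 < q ^ f := Nat.one_lt_pow hf.ne' hq.one_lt
  omega

end Fermat.Agent.S10
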