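import Mathlib

/-!
General helpers for proving that `𝓞 ℚ(ζ_p)` is a PID: computing norms of explicit
elements as products over `k ∈ [1, p)` and producing principal primes from elements of
norm `q ^ f`.
-/

set_option autoImplicit false

open NumberField IsCyclotomicExtension Polynomial

namespace Fermat.Agent.S10

/-- Product over the units of `ZMod p` as a product over `1 ≤ k < p`. -/
theorem prod_units_zmod_prime {M : Type*} [CommMonoid M] (p : ℕ) [hp : Fact p.Prime] (g : ℕ → M) :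
    ∏ u : (ZMod p)ˣ, g (u : ZMod p).val = ∏ k ∈ Finset.Ico 1 p, g k := by
  classical
  refine Finset.prod_bij' (fun u _ => (u : ZMod p).val)
    (fun k hk => ZMod.unitOfCoprime k
      ((Nat.coprime_comm.mp ((Nat.Prime.coprime_iff_not_dvd hp.out).mpr
        (Nat.not_dvd_of_pos_of_lt (Finset.mem_Ico.mp hk).1 (Finset.mem_Ico.mp hk).2))))) ?_ ?_ ?_ ?_ ?_
  · intro u _
    rw [Finset.mem_Ico]
    refine ⟨?_, ZMod.val_lt _⟩
    rw [Nat.one_le_iff_ne_zero, Ne, ZMod.val_eq_zero]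
    exact u.ne_zero
  · intro k _
    exact Finset.mem_univ _
  · intro u _
    ext
    simp
  · intro k hk
    simp only [ZMod.coe_unitOfCoprime]
    exact ZMod.val_cast_of_lt (Finset.mem_Ico.mp hk).2
  · intro u _
    rfl

variable (p : ℕ) [hp : Fact p.Prime] (K : Type*) [Field K] [NumberField K]
  [hK : IsCyclotomicExtension {p} ℚ K]

/-- The norm of `f(ζ)` is `∏_{1 ≤ k < p} f(ζ^k)`. -/
theorem algebraMap_norm_aeval {ζ : K} (hζ : ζ ^ p = 1) (f : ℤ[X]) :
    algebraMap ℚ K (Algebra.norm ℚ (aeval ζ f)) = ∏ k ∈ Finset.Ico 1 p, aeval (ζ ^ k) f := by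
  have : IsGalois ℚ K := IsCyclotomicExtension.isGalois {p} ℚ K
  rw [Algebra.norm_eq_prod_automorphisms, ← prod_units_zmod_prime p (fun k => aeval (ζ ^ k) f)]
  refine Fintype.prod_equiv (Rat.galEquivZMod p K).toEquiv _ _ (fun σ => ?_)
  have h := Rat.galEquivZMod_apply_of_pow_eq p K σ hζ
  simp only [MulEquiv.toEquiv_eq_coe, EquivLike.coe_coe]
  rw [← h]
  exact (Polynomial.aeval_algHom_apply (σ.toAlgHom.restrictScalars ℤ) ζ f).symm

/-- Computing the integral norm of `f(ζ)` from the product of the conjugates. -/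
theorem norm_aeval_toInteger {ζ : K} (hζ : IsPrimitiveRoot ζ p) (f : ℤ[X]) (n : ℤ)
    (h : ∏ k ∈ Finset.Ico 1 p, aeval (ζ ^ k) f = (n : K)) :
    Algebra.norm ℤ (aeval hζ.toInteger f) = n := by
  have h1 := algebraMap_norm_aeval p K hζ.pow_eq_one f
  rw [h] at h1
  have h2 : ((aeval hζ.toInteger f : 𝓞 K) : K) = aeval ζ f :=
    (Polynomial.aeval_algebraMap_apply K hζ.toInteger f).symm
  have h3 := Algebra.coe_norm_int (aeval hζ.toInteger f : 𝓞 K)
  rw [h2] at h3
  rw [← h3] at h1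
  have h4 : algebraMap ℚ K ((Algebra.norm ℤ (aeval hζ.toInteger f : 𝓞 K) : ℤ) : ℚ)
      = algebraMap ℚ K ((n : ℤ) : ℚ) := by
    rw [h1]; simp
  exact_mod_cast (algebraMap ℚ K).injective h4

/-- The order of a prime `q ≠ p` in `ZMod p` is positive. -/
theorem orderOf_prime_pos {q : ℕ} (hq : q.Prime) (hqp : q ≠ p) : 0 < orderOf (q : ZMod p) := by
  rw [orderOf_pos_iff, isOfFinOrder_iff_pow_eq_one]
  refine ⟨p - 1, Nat.sub_pos_of_lt hp.out.one_lt, ZMod.pow_card_sub_one_eq_one ?_⟩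
  rw [Ne, ZMod.natCast_eq_zero_iff]
  intro h
  exact hqp ((Nat.prime_dvd_prime_iff_eq hp.out hq).mp h).symm

/-- An element of `𝓞 ℚ(ζ_p)` whose norm is `± q ^ f`, with `f` the order of `q` mod `p`,
generates a prime ideal over `q`. -/
theorem exists_isPrincipal_mem_primesOver {q : ℕ} [hq : Fact q.Prime] (hqp : q ≠ p) (α : 𝓞 K)
    (hα : (Algebra.norm ℤ α).natAbs = q ^ orderOf (q : ZMod p)) :
    ∃ P ∈ Ideal.primesOver (Ideal.span {(q : ℤ)}) (𝓞 K), Submodule.IsPrincipal P := by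
  have hf : 0 < orderOf (q : ZMod p) := orderOf_prime_pos p hq.out hqp
  have hI : Ideal.absNorm (Ideal.span {α}) = q ^ orderOf (q : ZMod p) := by
    rw [Ideal.absNorm_span_singleton, hα]
  have hItop : Ideal.span {α} ≠ ⊤ := by
    intro h
    rw [h, Ideal.absNorm_top] at hI
    exact (Nat.one_lt_pow hf.ne' hq.out.one_lt).ne hI
  obtain ⟨P, hPmax, hIP⟩ := Ideal.exists_le_maximal _ hItop
  have hPprime : P.IsPrime := hPmax.isPrime
  have hdvd : Ideal.absNorm P ∣ q ^ orderOf (q : ZMod p) := hI ▸ Ideal.absNorm_dvd_absNorm_of_le hIP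
  obtain ⟨j, -, hj⟩ := (Nat.dvd_prime_pow hq.out).mp hdvd
  have hqP : (q : 𝓞 K) ∈ P := by
    have h1 := Ideal.absNorm_mem P
    rw [hj, Nat.cast_pow] at h1
    exact hPprime.mem_of_pow_mem j h1
  have hqmax : (Ideal.span {(q : ℤ)}).IsMaximal :=
    (Ideal.span_singleton_prime (by exact_mod_cast hq.out.ne_zero)).mpr
      (Nat.prime_iff_prime_int.mp hq.out) |>.isMaximal (by
        simpa using hq.out.ne_zero)
  have hlies : P.LiesOver (Ideal.span {(q : ℤ)}) := by
    constructor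
    refine hqmax.eq_of_le (Ideal.IsPrime.under ℤ P).ne_top ?_
    rw [Ideal.span_singleton_le_iff_mem, Ideal.mem_comap]
    simpa using hqP
  have hnd : ¬ q ∣ p := fun h => hqp ((Nat.prime_dvd_prime_iff_eq hq.out hp.out).mp h)
  have hPn : Ideal.absNorm P = q ^ orderOf (q : ZMod p) := by
    rw [← Rat.inertiaDeg_eq_of_not_dvd q K P hnd, ← Ideal.natAbs_pow_inertiaDeg (q : ℤ) P,
      Int.natAbs_natCast]
  obtain ⟨J, hJ⟩ := Ideal.dvd_iff_le.mpr hIP
  have hJ1 : Ideal.absNorm J = 1 := by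
    have h2 := congrArg Ideal.absNorm hJ
    rw [map_mul, hI, hPn] at h2
    exact (Nat.eq_of_mul_eq_mul_left (Nat.pow_pos hq.out.pos) (by rw [mul_one]; exact h2)).symm
  rw [Ideal.absNorm_eq_one_iff.mp hJ1, Ideal.mul_top] at hJ
  exact ⟨P, ⟨hPprime, hlies⟩, hJ ▸ ⟨α, rfl⟩⟩

end Fermat.Agent.S10
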