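import Mathlib
import Fermat.Agent.S10.CycloNorm

/-!
# The ring of integers of `ℚ(ζ_11)` is a PID

Minkowski bound plus explicit generators of the primes of small norm.
-/

set_option autoImplicit false

open NumberField IsCyclotomicExtension Polynomial Module InfinitePlace Nat Real

namespace Fermat.Agent.S10

theorem prod_eleven_23 {R : Type*} [CommRing R] (z : R) (h : 1 + z + z ^ 2 + z ^ 3 + z ^ 4 + z ^ 5 + z ^ 6 + z ^ 7 + z ^ 8 + z ^ 9 + z ^ 10 = 0) :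
    ∏ k ∈ Finset.Ico 1 11, (1 + (z ^ k) + (z ^ k) ^ 3) = 23 := by
  simp only [Finset.prod_Ico_succ_top, Finset.Ico_self, Finset.prod_empty, Nat.one_le_ofNat, le_refl,
    one_mul]
  linear_combination ((-22) + 23 * z + 2 * z ^ 3 + (-1) * z ^ 4 + 2 * z ^ 5 + 2 * z ^ 6 + 1 * z ^ 7 + 1 * z ^ 8 + 5 * z ^ 9 + 3 * z ^ 10 + (-21) * z ^ 11 + 30 * z ^ 12 + 2 * z ^ 13 + 8 * z ^ 14 + 8 * z ^ 15 + 7 * z ^ 16 + 6 * z ^ 17 + 16 * z ^ 18 + 4 * z ^ 19 + 16 * z ^ 20 + 18 * z ^ 21 + (-13) * z ^ 22 + 38 * z ^ 23 + 24 * z ^ 24 + 15 * z ^ 25 + 17 * z ^ 26 + 34 * z ^ 27 + 18 * z ^ 28 + 25 * z ^ 29 + 33 * z ^ 30 + 30 * z ^ 31 + 23 * z ^ 32 + 26 * z ^ 33 + 43 * z ^ 34 + 44 * z ^ 35 + 52 * z ^ 36 + 34 * z ^ 37 + 38 * z ^ 38 + 66 * z ^ 39 + 33 * z ^ 40 + 45 * z ^ 41 + 75 * z ^ 42 + 36 * z ^ 43 + 39 * z ^ 44 + 108 * z ^ 45 + 39 * z ^ 46 + 62 * z ^ 47 + 86 * z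 ^ 48 + 46 * z ^ 49 + 69 * z ^ 50 + 91 * z ^ 51 + 57 * z ^ 52 + 65 * z ^ 53 + 109 * z ^ 54 + 43 * z ^ 55 + 85 * z ^ 56 + 102 * z ^ 57 + 69 * z ^ 58 + 68 * z ^ 59 + 108 * z ^ 60 + 64 * z ^ 61 + 78 * z ^ 62 + 112 * z ^ 63 + 59 * z ^ 64 + 81 * z ^ 65 + 124 * z ^ 66 + 47 * z ^ 67 + 90 * z ^ 68 + 112 * z ^ 69 + 56 * z ^ 70 + 69 * z ^ 71 + 135 * z ^ 72 + 43 * z ^ 73 + 82 * z ^ 74 + 105 * z ^ 75 + 57 * z ^ 76 + 74 * z ^ 77 + 109 * z ^ 78 + 50 * z ^ 79 + 72 * z ^ 80 + 94 * z ^ 81 + 43 * z ^ 82 + 76 * z ^ 83 + 98 * z ^ 84 + 28 * z ^ 85 + 70 * z ^ 86 + 89 * z ^ 87 + 33 * z ^ 88 + 63 * z ^ 89 + 81 * z ^ 90 + 30 * z ^ 91 + 51 * z ^ 92 + 81 * z ^ 93 + 20 * z ^ 94 + 54 * z ^ 95 + 60 * z ^ 96 + 23 * z ^ 97 + 40 * z ^ 98 + 64 * z ^ 99 + 12 * z ^ 100 + 48 * z ^ 101 + 42 * z ^ 102 + 19 * z ^ 103 + 28 * z ^ 104 + 53 * z ^ 105 + (-1) * z ^ 106 + 42 * z ^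 107 + 25 * z ^ 108 + 17 * z ^ 109 + 19 * z ^ 110 + 40 * z ^ 111 + (-6) * z ^ 112 + 30 * z ^ 113 + 19 * z ^ 114 + 10 * z ^ 115 + 9 * z ^ 116 + 31 * z ^ 117 + (-9) * z ^ 118 + 22 * z ^ 119 + 11 * z ^ 120 + 10 * z ^ 121 + 4 * z ^ 122 + 21 * z ^ 123 + (-10) * z ^ 124 + 19 * z ^ 125 + 2 * z ^ 126 + 5 * z ^ 127 + 3 * z ^ 128 + 12 * z ^ 129 + (-7) * z ^ 130 + 13 * z ^ 131 + 1 * z ^ 132 + 3 * z ^ 133 + 9 * z ^ 135 + (-6) * z ^ 136 + 7 * z ^ 137 + 2 * z ^ 139 + (-1) * z ^ 140 + 5 * z ^ 141 + (-3) * z ^ 142 + 4 * z ^ 143 + 2 * z ^ 147 + (-2) * z ^ 148 + 3 * z ^ 149 + (-1) * z ^ 150 + 1 * z ^ 153 + (-1) * z ^ 154 + 1 * z ^ 155) * h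

theorem minkowski_eleven (K : Type*) [Field K] [NumberField K] [IsCyclotomicExtension {11} ℚ K] :
    ⌊(4 / π) ^ nrComplexPlaces K *
      ((finrank ℚ K)! / (finrank ℚ K) ^ (finrank ℚ K) * √|discr K|)⌋₊ ≤ 66 := by
  have : Fact (Nat.Prime 11) := ⟨by norm_num⟩
  have htot : Nat.totient 11 = 10 := by rw [Nat.totient_prime (by norm_num)]
  rw [Rat.discr_prime 11 K, IsCyclotomicExtension.finrank (n := 11) K
    (cyclotomic.irreducible_rat (by simp)), Rat.nrComplexPlaces_eq_totient_div_two 11, htot]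
  have hfac : ((10 ! : ℕ) : ℝ) = 3628800 := by
    norm_num [Nat.factorial]
  have hsq : √|(((-1) ^ ((11 - 1) / 2) * (11 : ℕ) ^ (11 - 2) : ℤ) : ℝ)| < 48559 := by
    rw [Real.sqrt_lt' (by norm_num)]
    norm_num
  have hpi : (4 / π) < 4 / 3.14 := by
    apply div_lt_div_of_pos_left (by norm_num) (by norm_num) Real.pi_gt_d2
  have hpi0 : (0 : ℝ) < 4 / π := by positivity
  have hlt : (4 / π) ^ (10 / 2) * (((10 ! : ℕ) : ℝ) / ((10 : ℕ) : ℝ) ^ 10 *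
      √|(((-1) ^ ((11 - 1) / 2) * (11 : ℕ) ^ (11 - 2) : ℤ) : ℝ)|) < 67 := by
    rw [hfac]
    calc (4 / π) ^ (10 / 2) * (3628800 / ((10 : ℕ) : ℝ) ^ 10 *
          √|(((-1) ^ ((11 - 1) / 2) * (11 : ℕ) ^ (11 - 2) : ℤ) : ℝ)|)
        ≤ (4 / 3.14) ^ (10 / 2) * (3628800 / ((10 : ℕ) : ℝ) ^ 10 * 48559) := by
          gcongr
      _ < 67 := by norm_num
  have h := (Nat.floor_lt' (n := 67) (by norm_num)).mpr hlt
  exact Nat.lt_succ_iff.mp h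

theorem arith_eleven_aux : ∀ q ∈ Finset.Icc 2 66, ∀ f ∈ Finset.Icc 1 6,
    (∀ m ∈ Finset.Icc 2 8, m ∣ q → m = q) → q ^ f ≤ 66 → q ^ f % 11 = 1 →
    q = 23 := by
  decide +kernel

theorem arith_eleven {q : ℕ} (hq : q.Prime) (hqB : q ≤ 66) (hqp : q ≠ 11)
    (hl : ¬ (q = 23)) :
    66 < q ^ orderOf (q : ZMod 11) := by
  have : Fact (Nat.Prime 11) := ⟨by norm_num⟩
  by_contra hcon
  rw [not_lt] at hcon
  have hf := Fermat.Agent.S10.orderOf_prime_pos 11 hq hqp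
  have h1 : ((q ^ orderOf (q : ZMod 11) : ℕ) : ZMod 11) = ((1 : ℕ) : ZMod 11) := by
    rw [Nat.cast_pow, pow_orderOf_eq_one, Nat.cast_one]
  rw [ZMod.natCast_eq_natCast_iff'] at h1
  have hf8 : orderOf (q : ZMod 11) ≤ 6 := by
    by_contra h9
    rw [not_le] at h9
    have h2 : 2 ^ 7 ≤ q ^ orderOf (q : ZMod 11) :=
      (Nat.pow_le_pow_right (by norm_num) h9).trans (Nat.pow_le_pow_left hq.two_le _)
    omega
  exact hl (arith_eleven_aux q (Finset.mem_Icc.mpr ⟨hq.two_le, hqB⟩) _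
    (Finset.mem_Icc.mpr ⟨hf, hf8⟩)
    (fun m hm hmq => ((Nat.dvd_prime hq).mp hmq).resolve_left
      (by have := (Finset.mem_Icc.mp hm).1; omega)) hcon h1)

theorem orderOf_eleven_23 : orderOf (((23 : ℕ) : ZMod 11)) = 1 := by
  rw [orderOf_eq_one_iff]; decide

theorem principal_eleven_23 (K : Type*) [Field K] [NumberField K] [IsCyclotomicExtension {11} ℚ K] :
    ∃ P ∈ Ideal.primesOver (Ideal.span {((23 : ℕ) : ℤ)}) (𝓞 K), Submodule.IsPrincipal P := by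
  have : Fact (Nat.Prime 11) := ⟨by norm_num⟩
  have : Fact (Nat.Prime 23) := ⟨by norm_num⟩
  have hζ := zeta_spec 11 ℚ K
  have hsum : 1 + (zeta 11 ℚ K) + (zeta 11 ℚ K) ^ 2 + (zeta 11 ℚ K) ^ 3 + (zeta 11 ℚ K) ^ 4 + (zeta 11 ℚ K) ^ 5 + (zeta 11 ℚ K) ^ 6 + (zeta 11 ℚ K) ^ 7 + (zeta 11 ℚ K) ^ 8 + (zeta 11 ℚ K) ^ 9 + (zeta 11 ℚ K) ^ 10 = 0 := by
    have h := hζ.geom_sum_eq_zero (by norm_num)
    simpa [Finset.sum_range_succ] using h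
  have hord := orderOf_eleven_23
  have hnorm : Algebra.norm ℤ (aeval hζ.toInteger (1 + X + X ^ 3 : ℤ[X])) = 23 := by
    apply Fermat.Agent.S10.norm_aeval_toInteger 11 K hζ
    have h := prod_eleven_23 (zeta 11 ℚ K) hsum
    simpa using h
  exact Fermat.Agent.S10.exists_isPrincipal_mem_primesOver 11 K (by norm_num)
    (aeval hζ.toInteger (1 + X + X ^ 3 : ℤ[X])) (by rw [hnorm, hord]; norm_num)

theorem pid_eleven' (K : Type*) [Field K] [NumberField K] [IsCyclotomicExtension {11} ℚ K] :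
    IsPrincipalIdealRing (𝓞 K) := by
  have : Fact (Nat.Prime 11) := ⟨by norm_num⟩
  have : IsGalois ℚ K := IsCyclotomicExtension.isGalois {11} ℚ K
  have hM := minkowski_eleven K
  apply RingOfIntegers.isPrincipalIdealRing_of_isPrincipal_of_lt_or_isPrincipal_of_mem_primesOver_of_mem_Icc
  intro q hqmem hq
  have hqB : q ≤ 66 := (Finset.mem_Icc.mp hqmem).2.trans hM
  by_cases hqp : q = 11
  · subst hqp
    have hζ := zeta_spec 11 ℚ K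
    have hζ' : IsPrimitiveRoot (zeta 11 ℚ K) (11 ^ (0 + 1)) := by simp [hζ]
    have : IsCyclotomicExtension {11 ^ (0 + 1)} ℚ K := by simpa using ‹IsCyclotomicExtension {11} ℚ K›
    exact ⟨Ideal.span {hζ'.toInteger - 1}, ⟨inferInstance, inferInstance⟩, Or.inr ⟨_, rfl⟩⟩
  by_cases hl : q = 23
  · rcases hl with rfl
    · obtain ⟨P, hP, hPp⟩ := principal_eleven_23 K
      exact ⟨P, hP, Or.inr hPp⟩
  · have : Fact q.Prime := ⟨hq⟩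
    obtain ⟨⟨P, hP1, hP2⟩⟩ := (Ideal.span {(q : ℤ)}).nonempty_primesOver (S := 𝓞 K)
    refine ⟨P, ⟨hP1, hP2⟩, Or.inl ?_⟩
    have hnd : ¬ q ∣ 11 := fun h => hqp ((Nat.prime_dvd_prime_iff_eq hq (by norm_num)).mp h)
    rw [Rat.inertiaDeg_eq_of_not_dvd q K P hnd]
    exact lt_of_le_of_lt hM (arith_eleven hq hqB hqp hl)

theorem pid_eleven : IsPrincipalIdealRing (𝓞 (CyclotomicField 11 ℚ)) :=
  @pid_eleven' (CyclotomicField 11 ℚ) _ _ (CyclotomicField.isCyclotomicExtension 11 ℚ)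

end Fermat.Agent.S10
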