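import Mathlib

set_option autoImplicit false
open NumberField

namespace Fermat.Agent.S10

/-- A commutative group generated by finitely many elements has `index (G^p) ≤ p ^ #generators`. -/
theorem index_powRange_le {G : Type*} [CommGroup G] {ι : Type*} [Fintype ι] (g : ι → G)
    (hg : ∀ x : G, ∃ e : ι → ℤ, x = ∏ i, g i ^ e i) (p : ℕ) [NeZero p] :
    (powMonoidHom p : G →* G).range.index ≠ 0 ∧
      (powMonoidHom p : G →* G).range.index ≤ p ^ Fintype.card ι := by
  set H := (powMonoidHom p : G →* G).range with hH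
  let Φ : (ι → ZMod p) → G ⧸ H := fun e => QuotientGroup.mk (∏ i, g i ^ (e i).val)
  have hΦ : Function.Surjective Φ := by
    intro q
    obtain ⟨x, rfl⟩ := QuotientGroup.mk_surjective q
    obtain ⟨e, rfl⟩ := hg x
    refine ⟨fun i => (e i : ZMod p), ?_⟩
    simp only [Φ]
    rw [QuotientGroup.eq]
    refine ⟨∏ i, g i ^ (e i / p), ?_⟩
    simp only [powMonoidHom_apply]
    rw [← Finset.prod_inv_distrib, ← Finset.prod_mul_distrib, ← Finset.prod_pow]
    refine Finset.prod_congr rfl fun i _ => ?_
    rw [← zpow_natCast (g i) (e i : ZMod p).val, ZMod.val_intCast, ← zpow_neg, ← zpow_add,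
      ← zpow_natCast, ← zpow_mul]
    congr 1
    have := Int.emod_add_mul_ediv (e i) p
    linarith
  have hfin : Finite (G ⧸ H) := Finite.of_surjective Φ hΦ
  constructor
  · rw [Subgroup.index]
    exact Nat.card_pos.ne'
  · rw [Subgroup.index]
    calc Nat.card (G ⧸ H) ≤ Nat.card (ι → ZMod p) := Nat.card_le_card_of_surjective Φ hΦ
      _ = p ^ Fintype.card ι := by
        classical
        rw [Nat.card_eq_fintype_card, Fintype.card_fun, ZMod.card]

/-- Dirichlet: the index of the `p`-th powers in the unit group is at most `p ^ (rank + 1)`. -/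
theorem units_index_pow_le (K : Type*) [Field K] [NumberField K] (p : ℕ) [NeZero p] :
    (powMonoidHom p : (𝓞 K)ˣ →* (𝓞 K)ˣ).range.index ≠ 0 ∧
      (powMonoidHom p : (𝓞 K)ˣ →* (𝓞 K)ˣ).range.index ≤ p ^ (Units.rank K + 1) := by
  obtain ⟨g0, hg0⟩ := IsCyclic.exists_generator (α := Units.torsion K)
  have := index_powRange_le (G := (𝓞 K)ˣ) (ι := Option (Fin (Units.rank K)))
    (fun o => o.elim (g0 : (𝓞 K)ˣ) (Units.fundSystem K)) ?_ p
  · simpa using this
  · intro x
    obtain ⟨⟨τ, e⟩, hx, -⟩ := Units.exist_unique_eq_mul_prod K x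
    obtain ⟨t, ht⟩ := Subgroup.mem_zpowers_iff.mp (hg0 τ)
    refine ⟨fun o => o.elim t e, ?_⟩
    rw [Fintype.prod_option]
    simp only [Option.elim]
    rw [hx, ← ht]
    simp

/-- Index argument: if `G^p ≤ S`, `index (G^p) ≤ p^n` and there are `n` elements independent
modulo `S`, then `S = G^p`. -/
theorem le_powRange_of_indep {G : Type*} [CommGroup G] (p n : ℕ) [NeZero p]
    (hidx0 : (powMonoidHom p : G →* G).range.index ≠ 0)
    (hidx : (powMonoidHom p : G →* G).range.index ≤ p ^ n)
    (S : Subgroup G) (hS : (powMonoidHom p : G →* G).range ≤ S)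
    (c : Fin n → G)
    (hc : ∀ e : Fin n → ℕ, (∏ i, c i ^ e i) ∈ S → ∀ i, p ∣ e i) :
    S ≤ (powMonoidHom p : G →* G).range := by
  set H := (powMonoidHom p : G →* G).range with hH
  have hmul := Subgroup.relIndex_mul_index hS
  have hS0 : S.index ≠ 0 := fun h => hidx0 (by rw [← hmul, h, mul_zero])
  have hfin : Finite (G ⧸ S) := by
    have : S.FiniteIndex := ⟨hS0⟩
    infer_instance
  let F : (Fin n → ZMod p) → G ⧸ S := fun e => QuotientGroup.mk (∏ i, c i ^ (e i).val)
  have hF : Function.Injective F := by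
    intro e e' hee
    simp only [F] at hee
    rw [QuotientGroup.eq] at hee
    set x := ∏ i, c i ^ (e i).val with hx
    set y := ∏ i, c i ^ (e' i).val with hy
    have hxp : x ^ p ∈ S := hS ⟨x, rfl⟩
    have h1 : x ^ (p - 1) * y ∈ S := by
      have : x ^ (p - 1) * y = x ^ p * (x⁻¹ * y) := by
        obtain ⟨k, hk⟩ : ∃ k, p = k + 1 := ⟨p - 1, (Nat.succ_pred_eq_of_pos (NeZero.pos p)).symm⟩
        rw [hk]
        simp only [Nat.add_sub_cancel]
        rw [pow_succ]
        group
      rw [this]
      exact S.mul_mem hxp hee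
    have h2 : x ^ (p - 1) * y = ∏ i, c i ^ ((e i).val * (p - 1) + (e' i).val) := by
      rw [hx, hy, ← Finset.prod_pow, ← Finset.prod_mul_distrib]
      refine Finset.prod_congr rfl fun i _ => ?_
      rw [pow_add, pow_mul]
    rw [h2] at h1
    have h3 := hc _ h1
    funext i
    have h4 := (ZMod.natCast_eq_zero_iff _ _).mpr (h3 i)
    have hp1 : ((p - 1 : ℕ) : ZMod p) = -1 := by
      rw [Nat.cast_sub (NeZero.pos p)]
      simp
    push_cast at h4
    rw [hp1] at h4
    simp only [ZMod.natCast_val, ZMod.cast_id', id_eq] at h4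
    linear_combination -h4
  have hcard : p ^ n ≤ S.index := by
    rw [Subgroup.index]
    calc p ^ n = Nat.card (Fin n → ZMod p) := by
          rw [Nat.card_eq_fintype_card, Fintype.card_fun, ZMod.card, Fintype.card_fin]
      _ ≤ Nat.card (G ⧸ S) := Nat.card_le_card_of_injective F hF
  have hrel : H.relIndex S = 1 := by
    have h5 : H.relIndex S * S.index ≤ S.index := by
      rw [hmul]; exact hidx.trans hcard
    have h6 : H.relIndex S ≠ 0 := fun h => hidx0 (by rw [← hmul, h, zero_mul])
    have h7 : H.relIndex S ≤ 1 := by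
      by_contra hcon
      push Not at hcon
      have : 2 * S.index ≤ H.relIndex S * S.index := Nat.mul_le_mul_right _ hcon
      omega
    omega
  exact Subgroup.relIndex_eq_one.mp hrel

end Fermat.Agent.S10
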