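import Fermat.Agent.S10.KummerAbstract
import Fermat.Agent.S10.CycloBasic

set_option autoImplicit false
open NumberField

namespace Fermat.Agent.S10

/-- `x` is congruent to a rational integer modulo `I`. -/
def IntMod {R : Type*} [CommRing R] (I x : R) : Prop := ∃ n : ℤ, I ∣ x - n

namespace IntMod
variable {R : Type*} [CommRing R] {I J x y : R}

theorem one : IntMod I (1 : R) := ⟨1, by simp⟩

theorem mul (hx : IntMod I x) (hy : IntMod I y) : IntMod I (x * y) := by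
  obtain ⟨n, hn⟩ := hx
  obtain ⟨m, hm⟩ := hy
  refine ⟨n * m, ?_⟩
  have : x * y - ((n * m : ℤ) : R) = (x - n) * y + n * (y - m) := by
    push_cast; ring
  rw [this]
  exact dvd_add (Dvd.dvd.mul_right hn _) (Dvd.dvd.mul_left hm _)

theorem pow (hx : IntMod I x) (e : ℕ) : IntMod I (x ^ e) := by
  induction e with
  | zero => simpa using one
  | succ e ih => rw [pow_succ]; exact ih.mul hx

theorem mono (h : J ∣ I) (hx : IntMod I x) : IntMod J x := by
  obtain ⟨n, hn⟩ := hx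
  exact ⟨n, h.trans hn⟩

theorem prod {ι : Type*} (s : Finset ι) (f : ι → R) (h : ∀ i ∈ s, IntMod I (f i)) :
    IntMod I (∏ i ∈ s, f i) := by
  classical
  induction s using Finset.induction_on with
  | empty => simpa using one
  | insert a s ha ih =>
    rw [Finset.prod_insert ha]
    exact (h a (Finset.mem_insert_self a s)).mul
      (ih fun i hi => h i (Finset.mem_insert_of_mem hi))

end IntMod

/-- first order binomial expansion modulo `l^(k+1)`. -/
theorem pow_congr_first_order {R : Type*} [CommRing R] (l x a b : R) (k : ℕ) (hk : 1 ≤ k)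
    (h : l ^ (k + 1) ∣ x - (a + b * l ^ k)) (e : ℕ) :
    l ^ (k + 1) ∣ x ^ e - (a ^ e + e * a ^ (e - 1) * b * l ^ k) := by
  induction e with
  | zero => simp
  | succ e ih =>
    obtain ⟨r, hr⟩ := h
    obtain ⟨s, hs⟩ := ih
    obtain ⟨k', rfl⟩ : ∃ k', k = k' + 1 := ⟨k - 1, by omega⟩
    have hae : (e : R) * a ^ (e - 1) * a = e * a ^ e := by
      cases e with
      | zero => simp
      | succ e => simp [pow_succ]; ring
    refine ⟨x ^ e * r + s * (a + b * l ^ (k' + 1)) + e * a ^ (e - 1) * b * b * l ^ k', ?_⟩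
    rw [pow_succ x e]
    simp only [Nat.add_sub_cancel]
    push_cast
    generalize x ^ e = X at hs ⊢
    linear_combination X * hr + (a + b * l ^ (k' + 1)) * hs + (b * l ^ (k' + 1)) * hae

section
variable {p : ℕ} [hp : Fact p.Prime] {K : Type*} [Field K] [NumberField K]
  [IsCyclotomicExtension {p} ℚ K] {ζ : K} (hζ : IsPrimitiveRoot ζ p)

/-- The subgroup of units congruent to a rational integer modulo `p`. -/
def intUnits : Subgroup (𝓞 K)ˣ where
  carrier := {u | IntMod (p : 𝓞 K) (u : 𝓞 K)}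
  mul_mem' := by
    intro a b ha hb
    simp only [Set.mem_ofPred_eq, Units.val_mul] at *
    exact ha.mul hb
  one_mem' := by
    simp only [Set.mem_ofPred_eq, Units.val_one]
    exact IntMod.one
  inv_mem' := by
    intro u hu
    simp only [Set.mem_ofPred_eq] at *
    have h1 : u⁻¹ = u ^ (p - 1) * (u⁻¹) ^ p := by
      obtain ⟨k, hk⟩ : ∃ k, p = k + 1 := ⟨p - 1, (Nat.succ_pred_eq_of_pos hp.out.pos).symm⟩
      rw [hk]
      simp only [Nat.add_sub_cancel]
      rw [pow_succ]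
      simp
    rw [h1, Units.val_mul, Units.val_pow_eq_pow_val, Units.val_pow_eq_pow_val]
    exact (hu.pow _).mul (pow_prime_congr_int hζ _)

theorem mem_intUnits {u : (𝓞 K)ˣ} : u ∈ intUnits hζ ↔ ∃ n : ℤ, (p : 𝓞 K) ∣ (u : 𝓞 K) - n :=
  Iff.rfl

theorem powRange_le_intUnits : (powMonoidHom p : (𝓞 K)ˣ →* (𝓞 K)ˣ).range ≤ intUnits hζ := by
  rintro _ ⟨v, rfl⟩
  rw [mem_intUnits]
  simp only [powMonoidHom_apply, Units.val_pow_eq_pow_val]
  exact pow_prime_congr_int hζ _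

theorem not_lambda_dvd_unit (u : (𝓞 K)ˣ) : ¬ (hζ.toInteger - 1) ∣ (u : 𝓞 K) := fun h =>
  (lambda_prime hζ).not_isUnit (isUnit_of_dvd_unit h u.isUnit)

theorem indep_of_triangular (n : ℕ) (c : Fin n → (𝓞 K)ˣ) (k : Fin n → ℕ) (m β : Fin n → ℤ)
    (hk : StrictMono k) (hk1 : ∀ i, 1 ≤ k i) (hkp : ∀ i, k i + 1 ≤ p - 1)
    (hβ : ∀ i, ¬ (p : ℤ) ∣ β i)
    (hc : ∀ i, (hζ.toInteger - 1) ^ (k i + 1) ∣
      (c i : 𝓞 K) - (m i + β i * (hζ.toInteger - 1) ^ (k i)))
    (e : Fin n → ℕ) (he : ∏ i, c i ^ e i ∈ intUnits hζ) : ∀ i, p ∣ e i := by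
  intro j
  induction j using WellFoundedLT.induction with
  | ind j ih =>
  set l := hζ.toInteger - 1 with hl
  have hlprime : Prime l := lambda_prime hζ
  set I := l ^ (k j + 1) with hI
  have hIp : I ∣ (p : 𝓞 K) := (pow_dvd_pow l (hkp j)).trans (lambda_pow_dvd_p hζ)
  have hlI : l ∣ I := dvd_pow_self l (by omega)
  have hllk : l ∣ l ^ (k j) := dvd_pow_self l (by have := hk1 j; omega)
  -- the other factors
  have hA : IntMod I (∏ i ∈ Finset.univ.erase j, ((c i : 𝓞 K)) ^ e i) := by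
    refine IntMod.prod _ _ fun i hi => ?_
    have hij : i ≠ j := Finset.ne_of_mem_erase hi
    rcases lt_or_gt_of_ne hij with hlt | hgt
    · obtain ⟨t, ht⟩ := ih i hlt
      rw [ht, mul_comm, pow_mul]
      exact IntMod.mono hIp (pow_prime_congr_int hζ _)
    · refine IntMod.pow ⟨m i, ?_⟩ _
      have h1 : k j + 1 ≤ k i := hk hgt
      have h2 : I ∣ l ^ (k i) := pow_dvd_pow l h1
      have h3 : I ∣ l ^ (k i + 1) := pow_dvd_pow l (by omega)
      have : (c i : 𝓞 K) - (m i : 𝓞 K) = ((c i : 𝓞 K) - (m i + β i * l ^ (k i))) + β i * l ^ (k i) := by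
        ring
      rw [this]
      exact dvd_add (h3.trans (hc i)) (Dvd.dvd.mul_left h2 _)
  obtain ⟨M, hM⟩ := hA
  set A := ∏ i ∈ Finset.univ.erase j, ((c i : 𝓞 K)) ^ e i with hAdef
  have hAunit : IsUnit A := by
    rw [hAdef]
    exact Finset.prod_induction _ IsUnit (fun _ _ => IsUnit.mul) isUnit_one
      (fun i _ => (c i).isUnit.pow _)
  have hB := pow_congr_first_order l (c j : 𝓞 K) (m j) (β j) (k j) (hk1 j) (hc j) (e j)
  set B := (c j : 𝓞 K) ^ e j with hBdef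
  obtain ⟨N, hN⟩ := (mem_intUnits hζ).mp he
  have hw : ((∏ i, c i ^ e i : (𝓞 K)ˣ) : 𝓞 K) = B * A := by
    rw [hBdef, hAdef, Finset.mul_prod_erase Finset.univ (fun i => (c i : 𝓞 K) ^ e i)
      (Finset.mem_univ j)]
    simp
  rw [hw] at hN
  have hN' : I ∣ B * A - N := hIp.trans hN
  -- combine
  have key : I ∣ ((M * (m j) ^ (e j) - N : ℤ) : 𝓞 K)
      + ((M * (e j) * (m j) ^ (e j - 1) * β j : ℤ) : 𝓞 K) * l ^ (k j) := by
    have : ((M * (m j) ^ (e j) - N : ℤ) : 𝓞 K)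
      + ((M * (e j) * (m j) ^ (e j - 1) * β j : ℤ) : 𝓞 K) * l ^ (k j)
      = (B * A - N) - B * (A - M)
        - M * (B - ((m j : 𝓞 K) ^ e j + e j * (m j : 𝓞 K) ^ (e j - 1) * β j * l ^ (k j))) := by
      push_cast; ring
    rw [this]
    exact dvd_sub (dvd_sub hN' (Dvd.dvd.mul_left hM _)) (Dvd.dvd.mul_left hB _)
  have h5 : (p : ℤ) ∣ (M * (m j) ^ (e j) - N) := by
    rw [← lambda_dvd_int_iff hζ]
    have := (dvd_add_left (Dvd.dvd.mul_left hllk
      ((M * (e j) * (m j) ^ (e j - 1) * β j : ℤ) : 𝓞 K))).mp (hlI.trans key)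
    exact this
  have h5' : I ∣ ((M * (m j) ^ (e j) - N : ℤ) : 𝓞 K) := by
    obtain ⟨t, ht⟩ := h5
    rw [ht]
    push_cast
    exact Dvd.dvd.mul_right hIp _
  have h6 : I ∣ ((M * (e j) * (m j) ^ (e j - 1) * β j : ℤ) : 𝓞 K) * l ^ (k j) :=
    (dvd_add_right h5').mp key
  have h7 : l ∣ ((M * (e j) * (m j) ^ (e j - 1) * β j : ℤ) : 𝓞 K) := by
    rw [hI, pow_succ, mul_comm] at h6
    exact (mul_dvd_mul_iff_right (pow_ne_zero _ hlprime.ne_zero)).mp h6
  have h8 : (p : ℤ) ∣ M * (e j) * (m j) ^ (e j - 1) * β j := (lambda_dvd_int_iff hζ).mp h7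
  have hpprime : Prime (p : ℤ) := Nat.prime_iff_prime_int.mp hp.out
  have hMp : ¬ (p : ℤ) ∣ M := by
    intro h
    have h9 : l ∣ (M : 𝓞 K) := (lambda_dvd_int_iff hζ).mpr h
    have h10 : l ∣ A := by
      have := dvd_add (hlI.trans hM) h9
      simpa using this
    exact hlprime.not_isUnit (isUnit_of_dvd_unit h10 hAunit)
  have hmp : ¬ (p : ℤ) ∣ m j := by
    intro h
    have h9 : l ∣ (m j : 𝓞 K) := (lambda_dvd_int_iff hζ).mpr h
    have h10 : l ∣ (c j : 𝓞 K) := by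
      have h11 := dvd_add (hlI.trans (hc j)) (dvd_add h9 (Dvd.dvd.mul_left hllk (β j : 𝓞 K)))
      simpa using h11
    exact not_lambda_dvd_unit hζ _ h10
  rcases hpprime.dvd_or_dvd h8 with h | h
  · rcases hpprime.dvd_or_dvd h with h | h
    · rcases hpprime.dvd_or_dvd h with h | h
      · exact absurd h hMp
      · exact Int.natCast_dvd_natCast.mp h
    · exact absurd (hpprime.dvd_of_dvd_pow h) hmp
  · exact absurd h (hβ j)

include hζ in
theorem rank_add_one (hp2 : p ≠ 2) : Units.rank K + 1 = (p - 1) / 2 := by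
  have hp3 : 2 < p := lt_of_le_of_ne hp.out.two_le (Ne.symm hp2)
  rw [Units.rank, InfinitePlace.card_eq_nrRealPlaces_add_nrComplexPlaces,
    IsCyclotomicExtension.Rat.nrRealPlaces_eq_zero (n := p) K hp3,
    IsCyclotomicExtension.Rat.nrComplexPlaces_eq_totient_div_two p K,
    Nat.totient_prime hp.out]
  omega

/-- Kummer's lemma from a triangular system of `(p-1)/2` units. -/
theorem kummer_of_triangular (hp2 : p ≠ 2) (n : ℕ) (hn : (p - 1) / 2 = n)
    (c : Fin n → (𝓞 K)ˣ) (k : Fin n → ℕ) (m β : Fin n → ℤ)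
    (hk : StrictMono k) (hk1 : ∀ i, 1 ≤ k i) (hkp : ∀ i, k i + 1 ≤ p - 1)
    (hβ : ∀ i, ¬ (p : ℤ) ∣ β i)
    (hc : ∀ i, (hζ.toInteger - 1) ^ (k i + 1) ∣
      (c i : 𝓞 K) - (m i + β i * (hζ.toInteger - 1) ^ (k i)))
    (u : (𝓞 K)ˣ) (N : ℤ) (hu : (p : 𝓞 K) ∣ (u : 𝓞 K) - N) : ∃ v : (𝓞 K)ˣ, u = v ^ p := by
  have hidx := units_index_pow_le K p
  rw [rank_add_one hζ hp2, hn] at hidx
  have := le_powRange_of_indep p n hidx.1 hidx.2 (intUnits hζ) (powRange_le_intUnits hζ) c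
    (indep_of_triangular hζ n c k m β hk hk1 hkp hβ hc) ((mem_intUnits hζ).mpr ⟨N, hu⟩)
  obtain ⟨v, hv⟩ := this
  exact ⟨v, hv.symm⟩

end

end Fermat.Agent.S10
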