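import Mathlib

set_option autoImplicit false

open NumberField Polynomial Ideal RingOfIntegers NumberField.Ideal IsCyclotomicExtension.Rat
  IsCyclotomicExtension

namespace Fermat.Agent.S10

variable (p : ℕ) [hp : Fact p.Prime] (K : Type*) [Field K] [NumberField K]
  [hK : IsCyclotomicExtension {p} ℚ K]

/-- Kummer-Dedekind packaged for cyclotomic fields: a principal prime above `q`. -/
theorem exists_principal_prime_over {q : ℕ} [Fact q.Prime] (Q : ℤ[X])
    (hQmonic : (Q.map (Int.castRingHom (ZMod q))).Monic)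
    (hQirr : Irreducible (Q.map (Int.castRingHom (ZMod q))))
    (hQdvd : Q.map (Int.castRingHom (ZMod q)) ∣ cyclotomic p (ZMod q))
    (α β γ s t : 𝓞 K)
    (h1 : α * β = (q : 𝓞 K))
    (h2 : α * γ = aeval (zeta_spec p ℚ K).toInteger Q)
    (h3 : α = (q : 𝓞 K) * s + aeval (zeta_spec p ℚ K).toInteger Q * t) :
    ∃ P ∈ primesOver (span {(q : ℤ)}) (𝓞 K), Submodule.IsPrincipal P := by
  set ζ := (zeta_spec p ℚ K).toInteger with hζ
  have h₁ : ¬ q ∣ exponent ζ := by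
    rw [exponent_eq_one_iff.mpr <| adjoin_singleton_eq_top (zeta_spec p ℚ K)]
    exact (Fact.out : q.Prime).not_dvd_one
  have hmin : minpoly ℤ ζ = cyclotomic p ℤ := by
    rw [cyclotomic_eq_minpoly (zeta_spec p ℚ K) hp.out.pos,
      ← (zeta_spec p ℚ K).coe_toInteger, ← RingOfIntegers.minpoly_coe ζ]
    rfl
  have hQ : Q.map (Int.castRingHom (ZMod q)) ∈ monicFactorsMod ζ q := by
    rw [Multiset.mem_toFinset, Polynomial.mem_normalizedFactors_iff
      (map_monic_ne_zero (minpoly.monic ζ.isIntegral))]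
    refine ⟨hQirr, hQmonic, ?_⟩
    rw [hmin, map_cyclotomic_int]
    exact hQdvd
  refine ⟨((primesOverSpanEquivMonicFactorsMod h₁).symm ⟨_, hQ⟩ : Ideal (𝓞 K)),
    ((primesOverSpanEquivMonicFactorsMod h₁).symm ⟨_, hQ⟩).prop, ?_⟩
  rw [primesOverSpanEquivMonicFactorsMod_symm_apply_eq_span h₁ hQ]
  refine ⟨α, ?_⟩
  apply le_antisymm
  · rw [Ideal.span_le]
    rintro x (rfl | rfl)
    · exact Ideal.mem_span_singleton.mpr ⟨β, h1.symm⟩
    · exact Ideal.mem_span_singleton.mpr ⟨γ, h2.symm⟩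
  · rw [Ideal.submodule_span_eq, Ideal.span_singleton_le_iff_mem, h3]
    exact Ideal.add_mem _ (Ideal.mul_mem_right _ _ (Ideal.subset_span (by simp)))
      (Ideal.mul_mem_right _ _ (Ideal.subset_span (by simp)))

/-- The Minkowski bound of the `p`-th cyclotomic field, in closed form. -/
theorem minkowski_eq :
    (4 / Real.pi) ^ InfinitePlace.nrComplexPlaces K *
      (((Module.finrank ℚ K).factorial : ℝ) / (Module.finrank ℚ K : ℝ) ^ Module.finrank ℚ K *
        √|((NumberField.discr K : ℤ) : ℝ)|) =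
    (4 / Real.pi) ^ ((p - 1) / 2) *
      ((((p - 1).factorial : ℕ) : ℝ) / ((p - 1 : ℕ) : ℝ) ^ (p - 1) * √((p : ℝ) ^ (p - 2))) := by
  have : NeZero p := ⟨hp.out.ne_zero⟩
  rw [discr_prime p K, IsCyclotomicExtension.finrank (n := p) K
    (cyclotomic.irreducible_rat hp.out.pos), nrComplexPlaces_eq_totient_div_two p,
    Nat.totient_prime hp.out]
  congr 3
  push_cast
  rw [abs_mul, abs_pow, abs_pow, abs_neg, abs_one, one_pow, one_mul, Nat.abs_cast]

/-- PID criterion for the `p`-th cyclotomic field: only primes `q ≠ p` with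
`q ^ (order of q mod p) ≤ B` need a principal prime above them. -/
theorem pid_of_bound (B : ℕ)
    (hB : (4 / Real.pi) ^ ((p - 1) / 2) *
      ((((p - 1).factorial : ℕ) : ℝ) / ((p - 1 : ℕ) : ℝ) ^ (p - 1) * √((p : ℝ) ^ (p - 2))) < B + 1)
    (h : ∀ q : ℕ, q.Prime → q ≠ p → q ^ orderOf (q : ZMod p) ≤ B →
      ∃ P ∈ primesOver (span {(q : ℤ)}) (𝓞 K), Submodule.IsPrincipal P) :
    IsPrincipalIdealRing (𝓞 K) := by
  have : NeZero p := ⟨hp.out.ne_zero⟩
  have : IsGalois ℚ K := isGalois {p} ℚ K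
  apply isPrincipalIdealRing_of_isPrincipal_of_lt_or_isPrincipal_of_mem_primesOver_of_mem_Icc
  rw [minkowski_eq p K]
  set M := (4 / Real.pi) ^ ((p - 1) / 2) *
      ((((p - 1).factorial : ℕ) : ℝ) / ((p - 1 : ℕ) : ℝ) ^ (p - 1) * √((p : ℝ) ^ (p - 2))) with hM
  have hfl : ⌊M⌋₊ ≤ B := by
    have : ⌊M⌋₊ < B + 1 := by
      rw [Nat.floor_lt' (by omega)]
      exact_mod_cast hB
    omega
  intro q _ hq
  by_cases hqp : q = p
  · subst hqp
    refine ⟨span {(zeta_spec q ℚ K).toInteger - 1}, ⟨inferInstance, ?_⟩, Or.inr ⟨_, rfl⟩⟩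
    have hK' : IsCyclotomicExtension {q ^ (0 + 1)} ℚ K := by simpa using hK
    have hz : IsPrimitiveRoot (zeta q ℚ K) (q ^ (0 + 1)) := by
      rw [zero_add, pow_one]; exact zeta_spec q ℚ K
    exact liesOver_span_zeta_sub_one q 0 hz
  · have : Fact q.Prime := ⟨hq⟩
    by_cases hle : q ^ orderOf (q : ZMod p) ≤ B
    · obtain ⟨P, hP, hP'⟩ := h q hq hqp hle
      exact ⟨P, hP, Or.inr hP'⟩
    · obtain ⟨⟨P, hP1, hP2⟩⟩ := (span {(q : ℤ)}).nonempty_primesOver (S := 𝓞 K)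
      refine ⟨P, ⟨hP1, hP2⟩, Or.inl ?_⟩
      rw [inertiaDeg_eq_of_not_dvd q K P (fun hd => hqp ((Nat.prime_dvd_prime_iff_eq hq hp.out).1 hd))]
      omega

/-- More convenient version of `pid_of_bound`. -/
theorem pid_of_bound' (B : ℕ)
    (hB : (4 / Real.pi) ^ ((p - 1) / 2) *
      ((((p - 1).factorial : ℕ) : ℝ) / ((p - 1 : ℕ) : ℝ) ^ (p - 1) * √((p : ℝ) ^ (p - 2))) < B + 1)
    (h : ∀ q f : ℕ, q.Prime → q ≠ p → 0 < f → q ^ f % p = 1 → q ^ f ≤ B →
      ∃ P ∈ primesOver (span {(q : ℤ)}) (𝓞 K), Submodule.IsPrincipal P) :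
    IsPrincipalIdealRing (𝓞 K) := by
  refine pid_of_bound p K B hB fun q hq hqp hle => h q _ hq hqp ?_ ?_ hle
  · rw [orderOf_pos_iff, isOfFinOrder_iff_pow_eq_one]
    refine ⟨p - 1, by have := hp.out.two_le; omega, ZMod.pow_card_sub_one_eq_one ?_⟩
    rw [Ne, ZMod.natCast_eq_zero_iff]
    exact fun hd => hqp ((Nat.prime_dvd_prime_iff_eq hp.out hq).1 hd).symm
  · have h1 : ((q ^ orderOf (q : ZMod p) : ℕ) : ZMod p) = ((1 : ℕ) : ZMod p) := by
      push_cast
      exact pow_orderOf_eq_one _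
    rw [ZMod.natCast_eq_natCast_iff'] at h1
    rw [h1]
    exact Nat.mod_eq_of_lt hp.out.one_lt

end Fermat.Agent.S10
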